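import Fermat.Agent.S55.Dual.Datum
import Fermat.Agent.S55.A.Main
import Fermat.Agent.S55.E.Chi
import Fermat.Agent.S55.G.Main
import Fermat.Agent.S55.D.Main

/-!
# S55 : top level decomposition

`core` (consumed by layer E) follows from
* `datumQ`      (layer G, from B, C, T),
* `dual_all`    (layer A4, formal),
* `card_sha_S`  (layer D).
-/

set_option autoImplicit false

noncomputable section

namespace Fermat.Agent.S55

open ExtCitation

/-- **[layer G]** the arithmetic datum for `ℚ` -/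
theorem datumQ (p : ℕ) [Fact p.Prime] (hp2 : p ≠ 2) :
    Nonempty (Datum p lvlQ (cycloChar p) Dq) :=
  G.datumQ' p hp2

/-- **[layer A4]** duality for "all places": `Ш²(M) ≅ Ш¹(M')^∨` -/
theorem dual_all {p : ℕ} [Fact p.Prime] {G : Type} [Group G] {𝓛 : Lvl G} {χ : G →* (ZMod p)ˣ}
    {Q : Type} [Nonempty Q] {D : Q → Subgroup G} (hχ : Smooth 𝓛 (rhoChi χ)) (dat : Datum p 𝓛 χ D)
    {A : Type} [AddCommGroup A] [Finite A] (hpA : ∀ a : A, p • a = 0)
    (ρ : G →* AddMonoid.End A) (hρ : Smooth 𝓛 ρ) :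
    Finite (ShaA2 𝓛 D ρ) ∧ Finite (ShaA1 𝓛 D (dualRho χ ρ)) ∧
      Nat.card (ShaA2 𝓛 D ρ) = Nat.card (ShaA1 𝓛 D (dualRho χ ρ)) :=
  dual_all' hχ dat hpA ρ hρ

theorem smooth_of_lvlS {S : Finset Nat.Primes} {A : Type*} [AddCommGroup A]
    {ρ : GQ →* AddMonoid.End A} (hρ : Smooth (lvlS S) ρ) : Smooth lvlQ ρ := fun a => by
  obtain ⟨U, hU, h⟩ := hρ a
  exact ⟨U, lvlS_sets_subset S hU, h⟩

/-- key `S55/E-chi` : the cyclotomic character is smooth -/
theorem smooth_rhoT (p : ℕ) [Fact p.Prime] : Smooth lvlQ (rhoChi (cycloChar p)) := fun a =>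
  ⟨_, ⟨E.cycloField p, E.finiteDimensional_cycloField p, rfl⟩, fun u hu => by
    rw [rhoChi_apply, E.cycloChar_eq_one_of_mem p hu]; simp⟩

/-- **[layer D]** comparison of `S` with "all places" -/
theorem card_sha_S {p : ℕ} [Fact p.Prime] (hp2 : p ≠ 2) (S : Finset Nat.Primes)
    (hpS : pPrime p ∈ S) {A : Type} [AddCommGroup A] [Finite A] (hpA : ∀ a : A, p • a = 0)
    (ρ : GQ →* AddMonoid.End A) (hρ : Smooth (lvlS S) ρ) :
    Finite (Sha2S S ρ) ∧ Finite (Sha1S S (dualRho (cycloChar p) ρ)) ∧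
      Nat.card (Sha2S S ρ) * Nat.card (ShaA1 lvlQ Dq (dualRho (cycloChar p) ρ)) =
        Nat.card (ShaA2 lvlQ Dq ρ) * Nat.card (Sha1S S (dualRho (cycloChar p) ρ)) := by
  obtain ⟨dat⟩ := datumQ p hp2
  haveI : Nonempty Nat.Primes := ⟨pPrime p⟩
  exact D.card_sha_S_of_datum dat hp2 hpS ⟨inferInstance, hpA, hρ⟩
    (dual_all (smooth_rhoT p) dat hpA ρ (smooth_of_lvlS hρ)).1

/-- **the target of layers A, B, C, D, G, T; the input of layer E** -/
theorem core {p : ℕ} [Fact p.Prime] (hp2 : p ≠ 2) (S : Finset Nat.Primes)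
    (hpS : pPrime p ∈ S) {A : Type} [AddCommGroup A] [Finite A] (hpA : ∀ a : A, p • a = 0)
    (ρ : GQ →* AddMonoid.End A) (hρ : Smooth (lvlS S) ρ) :
    Finite (Sha2S S ρ) ∧ Finite (Sha1S S (dualRho (cycloChar p) ρ)) ∧
      Nat.card (Sha2S S ρ) = Nat.card (Sha1S S (dualRho (cycloChar p) ρ)) := by
  obtain ⟨dat⟩ := datumQ p hp2
  haveI : Nonempty Nat.Primes := ⟨pPrime p⟩
  obtain ⟨h1, h2, h3⟩ := dual_all (smooth_rhoT p) dat hpA ρ (smooth_of_lvlS hρ)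
  obtain ⟨h4, h5, h6⟩ := card_sha_S hp2 S hpS hpA ρ hρ
  refine ⟨h4, h5, ?_⟩
  rw [h3, mul_comm] at h6
  exact Nat.eq_of_mul_eq_mul_left Nat.card_pos h6

end Fermat.Agent.S55
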